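import Fermat.Agent.LT.H670.D3.Closed
import Fermat.Agent.LT.H670.QOut.Final

/-!
# Row LT, T7 over `ℚ`, weight-one type (helper670): REALISATION in ONE lemma

OFF-MAIN.  Proved, UNCONDITIONAL (closed tower T1 + D3 + QOUT).

`IsWtOneSph0FormFor π φ` : `φ` is a continuous bounded automorphic function on `GL₂(𝔸_ℚ)` of level
`U(π.level)`, of weight one (`φ(g k_θ) = e^{iθ} φ(g)`), not identically zero, invariant under the
positive real scalars, whose weight-one circle means have the eigenvalue function of parameter `0`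
(`T6.Inf.MeanValueWtOne`, helper19), Hecke eigen with the eigenvalues of `π` at all `v ∤ π.level`
(`A0.IsHeckeEigenAt`).  This is what the comparison over `ℚ` produces for the type `τ = weight 1`
at a class `i` with `(Ch i).IsSph0` (clause C6 of `coord/LT-T7-helper797.md`).

    IsWtOneSph0FormFor.isHol : IsWtOneSph0FormFor π φ → QOut.IsHolWtOneFormFor π φ      (D3)
    realise_wtOne : IsWtOneSph0FormFor π φ →
      ∃ π', π'.a = π.a ∧ π'.b = π.b ∧ A0.notion556.IsCusp ℚ π'                          (D3 + QOUT)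

No cuspidality hypothesis (the classical form produced by QOUT is a cusp form because `φ` is
bounded), no hypothesis on the level.
-/

set_option autoImplicit false

open IsDedekindDomain NumberField AutomorphicForm
open UpperHalfPlane
open scoped MatrixGroups Manifold

noncomputable section

namespace Fermat.Agent.LT.H670.D3

open Fermat.Agent.LT.H556 Fermat.Agent.LT.H670 Fermat.Agent.LT.H670.QOut Fermat.Agent.LT

/-- **D3 without the level**: holomorphy from weight one + mean value of parameter `0`. -/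
theorem holo_of_meanValue (e : A0.G ℚ → ℂ) (hcont : Continuous e)
    (hbdd : ∃ C : ℝ, ∀ g : A0.G ℚ, ‖e g‖ ≤ C)
    (hleft : ∀ (γ : GL (Fin 2) ℚ) (g : A0.G ℚ),
      e (Matrix.GeneralLinearGroup.map (algebraMap ℚ (A0.Adl ℚ)) γ * g) = e g)
    (hscal : ∀ (w : InfinitePlace ℚ) (z : A0.G ℚ), A0.IsArchPosScalar w z →
      ∀ g : A0.G ℚ, e (g * z) = e g)
    (hweight : ∀ (w : InfinitePlace ℚ) (θ : ℝ) (k : A0.G ℚ), A0.IsLocalAtInf w k →
      A0.infComp w k = QOut.rotC θ →
      ∀ g : A0.G ℚ, e (g * k) = Complex.exp (Complex.I * ((θ : ℝ) : ℂ)) * e g)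
    (hmean : T6.Inf.MeanValueWtOne e)
    (w : InfinitePlace ℚ) (Y : ℍ → A0.G ℚ)
    (hY : ∀ z : ℍ, A0.IsLocalAtInf w (Y z) ∧ A0.infComp w (Y z) = QOut.gzC z)
    (g : A0.G ℚ) (hg : ∀ w' : InfinitePlace ℚ, A0.TrivAtInf w' g) :
    MDifferentiable 𝓘(ℂ) 𝓘(ℂ)
      (fun z : ℍ => (((Real.sqrt z.im : ℝ) : ℂ))⁻¹ * e (Y z * g)) := by
  have hT1 := T1.t1Out ℚ
  obtain ⟨F⟩ := T2.H245.frameExists245 hT1
  have he : IsAut670 e := ⟨hcont, hbdd, hleft, hscal⟩
  have hwt : ∀ (θ : ℝ) (g : A0.G ℚ),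
      e (g * locInf (kTheta θ)) = Complex.exp (Complex.I * ((θ : ℝ) : ℂ)) * e g :=
    fun θ g => hweight w θ _ (isLocalAtInf_locInf w _) (infComp_kTheta w θ) g
  have hmv : ∀ t : ℝ, 0 < t → ∀ g : A0.G ℚ,
      (∫ θ in (0 : ℝ)..(2 * Real.pi),
        Complex.exp (-(Complex.I * ((θ : ℝ) : ℂ))) * e (g * locInf (kTheta θ * aT t)))
        = ((2 * Real.pi / Real.cosh (t / 2) : ℝ) : ℂ) * e g :=
    fun t ht g => hmean w t ht (fun θ => locInf (kTheta θ * aT t))
      (fun θ => ⟨isLocalAtInf_locInf w _, infComp_kTheta_aT w θ t⟩) g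
  have key := mdifferentiable_vF hT1.adNorm hT1.unimod F he hwt hmv g
  have hfun : (fun z : ℍ => (((Real.sqrt z.im : ℝ) : ℂ))⁻¹ * e (Y z * g))
      = fun z : ℍ => vF e z g := by
    funext z
    have hYz : Y z = locInf (gzMat z) := by
      refine eq_locInf w _ (hY z).1 ?_
      rw [(hY z).2, ← infComp_gzMat w z, infComp_locInf]
    show _ = (((Real.sqrt z.im : ℝ) : ℂ))⁻¹ * e (g * locInf (gzMat z))
    rw [hYz, locInf_comm _ hg]
  rw [hfun]
  exact key

/-- **The output of the comparison over `ℚ` in the weight-one type** (before D3). -/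
structure IsWtOneSph0FormFor (π : HeckeEigensystem ℚ ℂ) (φ : A0.G ℚ → ℂ) : Prop where
  cont : Continuous φ
  bdd : ∃ C : ℝ, ∀ g : A0.G ℚ, ‖φ g‖ ≤ C
  ne_zero : ∃ g : A0.G ℚ, φ g ≠ 0
  left_inv : ∀ (γ : GL (Fin 2) ℚ) (g : A0.G ℚ),
    φ (Matrix.GeneralLinearGroup.map (algebraMap ℚ (A0.Adl ℚ)) γ * g) = φ g
  level_inv : ∀ u : A0.G ℚ, A0.InLevelGroup π.level u → ∀ g : A0.G ℚ, φ (g * u) = φ g
  arch_scalar : ∀ (w : InfinitePlace ℚ) (z : A0.G ℚ), A0.IsArchPosScalar w z →
    ∀ g : A0.G ℚ, φ (g * z) = φ g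
  weight_one : ∀ (w : InfinitePlace ℚ) (θ : ℝ) (k : A0.G ℚ), A0.IsLocalAtInf w k →
    A0.infComp w k = QOut.rotC θ →
    ∀ g : A0.G ℚ, φ (g * k) = Complex.exp (Complex.I * ((θ : ℝ) : ℂ)) * φ g
  mean : T6.Inf.MeanValueWtOne φ
  hecke : ∀ v : HeightOneSpectrum (𝓞 ℚ), ¬ v.asIdeal ∣ π.level →
    A0.IsHeckeEigenAt φ v (π.a v) (π.b v)

/-- **D3**: the form is holomorphic. -/
theorem IsWtOneSph0FormFor.isHol {π : HeckeEigensystem ℚ ℂ} {φ : A0.G ℚ → ℂ}
    (h : IsWtOneSph0FormFor π φ) : QOut.IsHolWtOneFormFor π φ where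
  bdd := h.bdd
  ne_zero := h.ne_zero
  left_inv := h.left_inv
  level_inv := h.level_inv
  arch_scalar := h.arch_scalar
  weight_one := h.weight_one
  holo := holo_of_meanValue φ h.cont h.bdd h.left_inv h.arch_scalar h.weight_one h.mean
  hecke := h.hecke

/-- **REALISATION (D3 + QOUT), unconditional**: the eigensystem of a weight-one automorphic
eigenform with the mean-value property of parameter `0` is, away from the level, the eigensystem
of a classical holomorphic cuspidal eigenform of weight one: `A0.notion556.IsCusp ℚ π'`. -/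
theorem realise_wtOne {π : HeckeEigensystem ℚ ℂ} {φ : A0.G ℚ → ℂ}
    (h : IsWtOneSph0FormFor π φ) :
    ∃ π' : HeckeEigensystem ℚ ℂ, π'.a = π.a ∧ π'.b = π.b ∧ A0.notion556.IsCusp ℚ π' :=
  QOut.qOut_isCuspHolQ QOut.qOutC π φ h.isHol

/-- the same, with the classical datum -/
theorem classOut_wtOne {π : HeckeEigensystem ℚ ℂ} {φ : A0.G ℚ → ℂ}
    (h : IsWtOneSph0FormFor π φ) : QOut.ClassOut π :=
  QOut.qOutC π φ h.isHol

end Fermat.Agent.LT.H670.D3

end
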