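import Fermat.Agent.LT.H670.D3.Top
import Fermat.Agent.LT.T6.Inf.Spec
import Fermat.Agent.LT.T1.Closed

/-!
# Row LT, T6inf.08 = D3 (helper670): CLOSED against the Spec of helper19, UNCONDITIONAL

OFF-MAIN.  `wtOneHolC : Fermat.Agent.LT.T6.Inf.WtOneHolC` (frozen Prop of `LT/T6/Inf/Spec.lean`,
helper19, v3 sha256 29b3285530eb; Part A identical to v2), from `wtOneHol_of_t1` (`D3/Top.lean`)
and the closed tower T1 (`T1.t1Out`, helper54 `LT/T1/Closed.lean` sha256 81b3d248f342).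
-/

set_option autoImplicit false

namespace Fermat.Agent.LT.H670.D3

open Fermat.Agent.LT

/-- **T6inf.08 from the output of T1**, against the frozen Prop. -/
theorem wtOneHolC_of_t1 (hT1 : T1.T1Out ℚ) : T6.Inf.WtOneHolC := wtOneHol_of_t1 hT1

/-- **T6inf.08 = D3, UNCONDITIONAL.** -/
theorem wtOneHolC : T6.Inf.WtOneHolC := wtOneHolC_of_t1 (T1.t1Out ℚ)

end Fermat.Agent.LT.H670.D3
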