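import Fermat.Agent.LT.H670.D3.Kernel
import Fermat.Agent.LT.T2.H429.Transl
import Fermat.Agent.LT.T2.H245.Leaf01

/-!
# Row LT, T6inf.08 = D3 (helper670, SZEGO-KERNEL route): the frame

OFF-MAIN.  Proved lemmas only.  Assets (byte-identical copies): `T2/Spec.lean` (helper130),
`T2/H429/Transl.lean` (helper429, `transl429`), `T2/H245/Leaf01.lean` (helper245, open slab).

* continuity of `locInf`, `gzMat`, `kTheta`; `eq_locInf` (a local element at the real place is
  `locInf` of its real matrix);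
* `IsAut670` : bounded continuous functions on `GL₂(𝔸_ℚ)`, left invariant under `GL₂(ℚ)`, right
  invariant under the positive real scalars; stable under right translation by `locInf h`;
* `pair_shift670` : the pairing of a frame is invariant under right translations;
* `definite670` : the pairing is definite on `IsAut670`;
* `pair_integral670` : Fubini for a parametric interval integral in the first variable.
-/

set_option autoImplicit false

open IsDedekindDomain NumberField MeasureTheory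
open UpperHalfPlane
open scoped MatrixGroups Real

noncomputable section

namespace Fermat.Agent.LT.H670.D3

open Fermat.Agent.LT.H556 Fermat.Agent.LT.H670.QOut Fermat.Agent.LT

attribute [local instance] Fermat.Agent.LT.T2.borelG

/-! ## 1. Topology -/

theorem continuous_realToInf : Continuous (realToInf : ℝ → Ainf) := by
  refine continuous_pi fun w => ?_
  exact (InfinitePlace.Completion.isometryEquivRealOfIsReal (isReal_place w)).symm.continuous

theorem continuous_matInf :
    Continuous (matInf : Matrix (Fin 2) (Fin 2) ℝ → Matrix (Fin 2) (Fin 2) (A0.Adl ℚ)) := by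
  refine continuous_matrix fun i j => ?_
  have h1 : Continuous fun m : Matrix (Fin 2) (Fin 2) ℝ => realToInf (m i j) :=
    continuous_realToInf.comp (continuous_id.matrix_elem i j)
  exact Continuous.prodMk h1 continuous_const

theorem continuous_locInf : Continuous (locInf : GL (Fin 2) ℝ → A0.G ℚ) :=
  Continuous.units_map matInf continuous_matInf

/-- continuity of a map into `GL₂(ℝ)` given by matrices of determinant `≠ 0` -/
theorem continuous_mkOfDetNeZero {X : Type*} [TopologicalSpace X]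
    (M : X → Matrix (Fin 2) (Fin 2) ℝ) (hM : ∀ x, (M x).det ≠ 0) (hc : Continuous M) :
    Continuous fun x => Matrix.GeneralLinearGroup.mkOfDetNeZero (M x) (hM x) := by
  rw [Units.continuous_iff]
  refine ⟨hc, ?_⟩
  have h2 : (fun x => ((Matrix.GeneralLinearGroup.mkOfDetNeZero (M x) (hM x))⁻¹ :
      GL (Fin 2) ℝ).val) = fun x => (M x)⁻¹ := by
    funext x
    rw [Matrix.coe_units_inv]
    rfl
  show Continuous fun x => ((Matrix.GeneralLinearGroup.mkOfDetNeZero (M x) (hM x))⁻¹ :
      GL (Fin 2) ℝ).val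
  rw [h2]
  have h3 : (fun x => (M x)⁻¹) = fun x => ((M x).det)⁻¹ • (M x).adjugate := by
    funext x
    rw [Matrix.inv_def, Ring.inverse_eq_inv']
  rw [h3]
  exact ((hc.matrix_det).inv₀ hM).smul hc.matrix_adjugate

theorem continuous_gzMat : Continuous (gzMat : ℍ → GL (Fin 2) ℝ) := by
  refine continuous_mkOfDetNeZero (fun z : ℍ => !![z.im, z.re; 0, 1]) _ ?_
  refine continuous_matrix fun i j => ?_
  fin_cases i <;> fin_cases j <;> simp <;> fun_prop

theorem continuous_kTheta : Continuous (kTheta : ℝ → GL (Fin 2) ℝ) := by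
  refine continuous_mkOfDetNeZero
    (fun θ : ℝ => !![Real.cos θ, Real.sin θ; -Real.sin θ, Real.cos θ]) _ ?_
  refine continuous_matrix fun i j => ?_
  fin_cases i <;> fin_cases j <;> simp <;> fun_prop

/-! ## 2. Local elements at the real place -/

/-- an element supported at the real place is `locInf` of its real matrix -/
theorem eq_locInf (w : InfinitePlace ℚ) {g : A0.G ℚ} (M : GL (Fin 2) ℝ)
    (hloc : A0.IsLocalAtInf w g)
    (hcomp : A0.infComp w g = (M : Matrix (Fin 2) (Fin 2) ℝ).map (fun r : ℝ => (r : ℂ))) :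
    g = locInf M := by
  refine G_ext ?_ (fun v => ?_)
  · refine Matrix.ext fun i j => ?_
    funext w'
    have hw' : w' = w := Subsingleton.elim _ _
    subst hw'
    have h1 := congrFun (congrFun hcomp i) j
    have h2 := congrFun (congrFun (infComp_locInf w' M) i) j
    have h3 : InfinitePlace.Completion.extensionEmbedding w'
        (((g : Matrix (Fin 2) (Fin 2) (A0.Adl ℚ)) i j).1 w')
        = InfinitePlace.Completion.extensionEmbedding w'
          ((((locInf M : A0.G ℚ) : Matrix (Fin 2) (Fin 2) (A0.Adl ℚ)) i j).1 w') :=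
      h1.trans h2.symm
    exact (InfinitePlace.Completion.extensionEmbedding w').injective h3
  · rw [finComp_locInf]
    exact hloc.2 v

theorem infComp_kTheta (w : InfinitePlace ℚ) (θ : ℝ) :
    A0.infComp w (locInf (kTheta θ)) = rotC θ := by
  rw [infComp_locInf, val_kTheta]
  ext i j
  fin_cases i <;> fin_cases j <;> simp [rotC]

theorem infComp_gzMat (w : InfinitePlace ℚ) (z : ℍ) :
    A0.infComp w (locInf (gzMat z)) = gzC z := by
  rw [infComp_locInf, val_gzMat]
  ext i j
  fin_cases i <;> fin_cases j <;> simp [gzC]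

theorem infComp_kTheta_aT (w : InfinitePlace ℚ) (θ t : ℝ) :
    A0.infComp w (locInf (kTheta θ * aT t)) = rotC θ * A0.torus t := by
  rw [infComp_locInf, Units.val_mul, val_kTheta, val_aT]
  ext i j
  fin_cases i <;> fin_cases j <;> simp [rotC, A0.torus, Matrix.mul_apply, Fin.sum_univ_two]

theorem isArchPosScalar_scalR (w : InfinitePlace ℚ) (r : ℝ) (hr : 0 < r) :
    A0.IsArchPosScalar w (locInf (scalR r hr)) := by
  refine ⟨isLocalAtInf_locInf w _, r, hr, ?_⟩
  rw [infComp_locInf, val_scalR]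
  ext i j
  fin_cases i <;> fin_cases j <;> simp [Matrix.diagonal]

/-- a positive scalar at the real place is `locInf (scalR r)` -/
theorem eq_scalR_of_isArchPosScalar {w : InfinitePlace ℚ} {z : A0.G ℚ}
    (hz : A0.IsArchPosScalar w z) : ∃ (r : ℝ) (hr : 0 < r), z = locInf (scalR r hr) := by
  obtain ⟨hloc, r, hr, hcomp⟩ := hz
  refine ⟨r, hr, eq_locInf w _ hloc ?_⟩
  rw [hcomp, val_scalR]
  ext i j
  fin_cases i <;> fin_cases j <;> simp [Matrix.diagonal]

theorem scalR_comm (r : ℝ) (hr : 0 < r) (h : GL (Fin 2) ℝ) : scalR r hr * h = h * scalR r hr := by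
  apply Units.ext
  have hh : ((h : GL (Fin 2) ℝ) : Matrix (Fin 2) (Fin 2) ℝ) = !![h 0 0, h 0 1; h 1 0, h 1 1] :=
    Matrix.eta_fin_two _
  ext i j
  rw [Units.val_mul, Units.val_mul, val_scalR, hh]
  fin_cases i <;> fin_cases j <;> simp [Matrix.mul_apply, Fin.sum_univ_two] <;> ring

theorem isDiagPosScalar_iff (z : A0.G ℚ) (w : InfinitePlace ℚ) :
    T2.IsDiagPosScalar z ↔ A0.IsArchPosScalar w z := by
  constructor
  · rintro ⟨hfin, r, hr, hinf⟩
    exact ⟨⟨fun w' h => absurd (Subsingleton.elim w' w) h, hfin⟩, r, hr, hinf w⟩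
  · rintro ⟨⟨-, hfin⟩, r, hr, hinf⟩
    refine ⟨hfin, r, hr, fun w' => ?_⟩
    rw [Subsingleton.elim w' w]
    exact hinf

/-! ## 3. The class of functions -/

/-- bounded continuous functions on `GL₂(𝔸_ℚ)`, left invariant under `GL₂(ℚ)` and right
invariant under the positive real scalars -/
structure IsAut670 (f : A0.G ℚ → ℂ) : Prop where
  cont : Continuous f
  bdd : ∃ C : ℝ, ∀ g : A0.G ℚ, ‖f g‖ ≤ C
  left_inv : ∀ (γ : GL (Fin 2) ℚ) (g : A0.G ℚ),
    f (Matrix.GeneralLinearGroup.map (algebraMap ℚ (A0.Adl ℚ)) γ * g) = f g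
  arch_scalar : ∀ (w : InfinitePlace ℚ) (z : A0.G ℚ), A0.IsArchPosScalar w z →
    ∀ g : A0.G ℚ, f (g * z) = f g

theorem IsAut670.shift {f : A0.G ℚ → ℂ} (hf : IsAut670 f) (h : GL (Fin 2) ℝ) :
    IsAut670 (fun g => f (g * locInf h)) where
  cont := hf.cont.comp (continuous_mul_const _)
  bdd := by
    obtain ⟨C, hC⟩ := hf.bdd
    exact ⟨C, fun g => hC _⟩
  left_inv γ g := by
    show f (_ * g * locInf h) = f (g * locInf h)
    rw [mul_assoc]
    exact hf.left_inv γ _
  arch_scalar w z hz g := by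
    obtain ⟨r, hr, rfl⟩ := eq_scalR_of_isArchPosScalar hz
    show f (g * locInf (scalR r hr) * locInf h) = f (g * locInf h)
    rw [mul_assoc, ← map_mul, scalR_comm, map_mul, ← mul_assoc]
    exact hf.arch_scalar w _ (isArchPosScalar_scalR w r hr) _

theorem IsAut670.sub {f₁ f₂ : A0.G ℚ → ℂ} (h1 : IsAut670 f₁) (h2 : IsAut670 f₂) :
    IsAut670 (fun g => f₁ g - f₂ g) where
  cont := h1.cont.sub h2.cont
  bdd := by
    obtain ⟨C1, hC1⟩ := h1.bdd
    obtain ⟨C2, hC2⟩ := h2.bdd
    exact ⟨C1 + C2, fun g => (norm_sub_le _ _).trans (add_le_add (hC1 g) (hC2 g))⟩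
  left_inv γ g := by
    show f₁ _ - f₂ _ = _
    rw [h1.left_inv, h2.left_inv]
  arch_scalar w z hz g := by
    show f₁ _ - f₂ _ = _
    rw [h1.arch_scalar w z hz, h2.arch_scalar w z hz]

theorem IsAut670.const_mul {f : A0.G ℚ → ℂ} (hf : IsAut670 f) (c : ℂ) :
    IsAut670 (fun g => c * f g) where
  cont := continuous_const.mul hf.cont
  bdd := by
    obtain ⟨C, hC⟩ := hf.bdd
    refine ⟨‖c‖ * C, fun g => ?_⟩
    rw [norm_mul]
    exact mul_le_mul_of_nonneg_left (hC g) (norm_nonneg _)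
  left_inv γ g := by
    show c * f _ = _
    rw [hf.left_inv]
  arch_scalar w z hz g := by
    show c * f _ = _
    rw [hf.arch_scalar w z hz]

/-- joint continuity of the integrand of a parametric mean -/
theorem continuous_family670 {f : A0.G ℚ → ℂ} (hf : Continuous f) {wt : ℝ → ℂ}
    (hw : Continuous wt) {h : ℝ → GL (Fin 2) ℝ} (hh : Continuous h) :
    Continuous (Function.uncurry fun (g : A0.G ℚ) (θ : ℝ) => wt θ * f (g * locInf (h θ))) := by
  have h1 : Continuous fun p : A0.G ℚ × ℝ => p.1 * locInf (h p.2) :=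
    continuous_fst.mul (continuous_locInf.comp (hh.comp continuous_snd))
  exact (hw.comp continuous_snd).mul (hf.comp h1)

theorem IsAut670.integral {f : A0.G ℚ → ℂ} (hf : IsAut670 f) {wt : ℝ → ℂ}
    (hw : Continuous wt) {h : ℝ → GL (Fin 2) ℝ} (hh : Continuous h) (a b : ℝ) :
    IsAut670 (fun g => ∫ θ in a..b, wt θ * f (g * locInf (h θ))) where
  cont := intervalIntegral.continuous_parametric_intervalIntegral_of_continuous'
    (continuous_family670 hf.cont hw hh) a b
  bdd := by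
    obtain ⟨C, hC⟩ := hf.bdd
    obtain ⟨W, hW⟩ := (isCompact_uIcc (a := a) (b := b)).exists_bound_of_continuousOn
      hw.continuousOn
    have hC0 : 0 ≤ C := (norm_nonneg _).trans (hC 1)
    refine ⟨W * C * |b - a|, fun g => ?_⟩
    refine intervalIntegral.norm_integral_le_of_norm_le_const fun θ hθ => ?_
    rw [norm_mul]
    exact mul_le_mul (hW θ (Set.uIoc_subset_uIcc hθ)) (hC _) (norm_nonneg _)
      ((norm_nonneg _).trans (hW θ (Set.uIoc_subset_uIcc hθ)))
  left_inv γ g := by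
    refine intervalIntegral.integral_congr fun θ _ => ?_
    show wt θ * f (_ * g * locInf (h θ)) = _
    rw [(hf.shift (h θ)).left_inv γ g]
  arch_scalar w z hz g := by
    refine intervalIntegral.integral_congr fun θ _ => ?_
    show wt θ * f (g * z * locInf (h θ)) = _
    rw [(hf.shift (h θ)).arch_scalar w z hz g]

/-! ## 4. The pairing -/

theorem IsAut670.integrableOn_mul_conj (F : T2.Frame ℚ) {f₁ f₂ : A0.G ℚ → ℂ}
    (h1 : IsAut670 f₁) (h2 : IsAut670 f₂) :
    IntegrableOn (fun g => f₁ g * (starRingEnd ℂ) (f₂ g)) F.D F.μ := by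
  have : BorelSpace (A0.G ℚ) := ⟨rfl⟩
  obtain ⟨C1, hC1⟩ := h1.bdd
  obtain ⟨C2, hC2⟩ := h2.bdd
  have hcont : Continuous (fun g => f₁ g * (starRingEnd ℂ) (f₂ g)) :=
    h1.cont.mul (Complex.continuous_conj.comp h2.cont)
  refine Measure.integrableOn_of_bounded (M := C1 * C2) F.fin.ne hcont.aestronglyMeasurable
    (Filter.Eventually.of_forall fun g => ?_)
  rw [norm_mul, RCLike.norm_conj]
  exact mul_le_mul (hC1 g) (hC2 g) (norm_nonneg _) ((norm_nonneg _).trans (hC1 g))

/-- the pairing is invariant under right translations -/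
theorem pair_shift670 (hN : T1.AdNormC ℚ) (hU : T1.UnimodC ℚ) (F : T2.Frame ℚ)
    {f₁ f₂ : A0.G ℚ → ℂ} (h1 : IsAut670 f₁) (h2 : IsAut670 f₂) (x : A0.G ℚ) :
    T2.pair F (fun g => f₁ (g * x)) (fun g => f₂ (g * x)) = T2.pair F f₁ f₂ := by
  have key := T2.H429.transl429 hN hU F (fun g => f₁ g * (starRingEnd ℂ) (f₂ g))
    (fun γ g => by
      show f₁ _ * (starRingEnd ℂ) (f₂ _) = _
      rw [show T1.ratG ℚ γ = Matrix.GeneralLinearGroup.map (algebraMap ℚ (A0.Adl ℚ)) γ from rfl,
        h1.left_inv, h2.left_inv])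
    (fun z hz g => by
      have hz' := (isDiagPosScalar_iff z Rat.infinitePlace).1 hz
      show f₁ _ * (starRingEnd ℂ) (f₂ _) = _
      rw [h1.arch_scalar _ z hz', h2.arch_scalar _ z hz']) x
  exact key

theorem pair_sub670 (F : T2.Frame ℚ) {f₁ f₂ ψ : A0.G ℚ → ℂ}
    (h1 : IsAut670 f₁) (h2 : IsAut670 f₂) (hψ : IsAut670 ψ) :
    T2.pair F (fun g => f₁ g - f₂ g) ψ = T2.pair F f₁ ψ - T2.pair F f₂ ψ := by
  unfold T2.pair
  rw [← integral_sub (h1.integrableOn_mul_conj F hψ) (h2.integrableOn_mul_conj F hψ)]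
  refine integral_congr_ae (Filter.Eventually.of_forall fun g => ?_)
  show (f₁ g - f₂ g) * _ = _
  ring

theorem pair_const_mul670 (F : T2.Frame ℚ) (c : ℂ) (f ψ : A0.G ℚ → ℂ) :
    T2.pair F (fun g => c * f g) ψ = c * T2.pair F f ψ := by
  unfold T2.pair
  rw [← integral_const_mul]
  refine integral_congr_ae (Filter.Eventually.of_forall fun g => ?_)
  show c * f g * _ = _
  ring

theorem pair_conj670 (F : T2.Frame ℚ) (f ψ : A0.G ℚ → ℂ) :
    T2.pair F ψ f = (starRingEnd ℂ) (T2.pair F f ψ) := by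
  unfold T2.pair
  rw [← integral_conj]
  refine integral_congr_ae (Filter.Eventually.of_forall fun g => ?_)
  show ψ g * (starRingEnd ℂ) (f g) = (starRingEnd ℂ) (f g * (starRingEnd ℂ) (ψ g))
  rw [map_mul, Complex.conj_conj, mul_comm]

/-- **Definiteness** of the pairing (proof of helper245 `pairDefinite245`, for `IsAut670`). -/
theorem definite670 (hN : T1.AdNormC ℚ) (F : T2.Frame ℚ) {φ : A0.G ℚ → ℂ} (hφ : IsAut670 φ)
    (h0 : T2.pair F φ φ = 0) : ∀ g : A0.G ℚ, φ g = 0 := by
  have : BorelSpace (A0.G ℚ) := ⟨rfl⟩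
  have := F.haar
  have hint := hφ.integrableOn_mul_conj F hφ
  have hreal : ∀ g, φ g * (starRingEnd ℂ) (φ g) = ((Complex.normSq (φ g) : ℝ) : ℂ) :=
    fun g => Complex.mul_conj (φ g)
  have hintR : IntegrableOn (fun g => Complex.normSq (φ g)) F.D F.μ := by
    have := hint.re
    refine this.congr (Filter.Eventually.of_forall fun g => ?_)
    show (φ g * (starRingEnd ℂ) (φ g)).re = Complex.normSq (φ g)
    rw [hreal, Complex.ofReal_re]
  have h0R : ∫ g in F.D, Complex.normSq (φ g) ∂F.μ = 0 := by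
    have h1 : T2.pair F φ φ = ((∫ g in F.D, Complex.normSq (φ g) ∂F.μ : ℝ) : ℂ) := by
      unfold T2.pair
      simp only [hreal]
      exact integral_ofReal
    rw [h1] at h0
    exact_mod_cast h0
  have hae : (fun g => Complex.normSq (φ g)) =ᵐ[F.μ.restrict F.D] 0 :=
    (setIntegral_eq_zero_iff_of_nonneg_ae
      (Filter.Eventually.of_forall fun g => Complex.normSq_nonneg _) hintR).1 h0R
  have hVopen : IsOpen {g : A0.G ℚ | φ g ≠ 0} := isOpen_ne_fun hφ.cont continuous_const
  have hVD : F.μ ({g : A0.G ℚ | φ g ≠ 0} ∩ F.D) = 0 := by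
    have h2 : F.μ.restrict F.D {g : A0.G ℚ | φ g ≠ 0} = 0 := by
      have h3 : ∀ᵐ g ∂(F.μ.restrict F.D), Complex.normSq (φ g) = 0 := hae
      rw [ae_iff] at h3
      have h4 : {g : A0.G ℚ | φ g ≠ 0} = {g : A0.G ℚ | ¬ Complex.normSq (φ g) = 0} := by
        ext g
        show φ g ≠ 0 ↔ ¬ Complex.normSq (φ g) = 0
        rw [Complex.normSq_eq_zero]
      rw [h4]
      exact h3
    rwa [Measure.restrict_apply hVopen.measurableSet] at h2
  have hVslab : F.μ ({g : A0.G ℚ | φ g ≠ 0} ∩ T1.slab ℚ) = 0 := by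
    have hcnt := T2.H245.countable_GL245 ℚ
    have hsub : {g : A0.G ℚ | φ g ≠ 0} ∩ T1.slab ℚ ⊆
        ⋃ γ : GL (Fin 2) ℚ, (fun g : A0.G ℚ => T1.ratG ℚ γ * g) ⁻¹'
          ({g : A0.G ℚ | φ g ≠ 0} ∩ F.D) := by
      rintro g ⟨hg, hgs⟩
      obtain ⟨γ, hγ, -⟩ := F.strict g hgs
      refine Set.mem_iUnion.2 ⟨γ, ?_, hγ⟩
      show φ (T1.ratG ℚ γ * g) ≠ 0
      have := hφ.left_inv γ g
      rw [show T1.ratG ℚ γ * g
        = Matrix.GeneralLinearGroup.map (algebraMap ℚ (A0.Adl ℚ)) γ * g from rfl, this]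
      exact hg
    refine measure_mono_null hsub ?_
    refine measure_iUnion_null fun γ => ?_
    rw [measure_preimage_mul]
    exact hVD
  have hempty : {g : A0.G ℚ | φ g ≠ 0} ∩ T2.H245.openSlab245 ℚ = ∅ := by
    have hop : IsOpen ({g : A0.G ℚ | φ g ≠ 0} ∩ T2.H245.openSlab245 ℚ) :=
      hVopen.inter (T2.H245.isOpen_openSlab245 hN)
    rw [← hop.measure_eq_zero_iff F.μ]
    exact measure_mono_null
      (Set.inter_subset_inter_right _ T2.H245.openSlab245_subset_slab) hVslab
  intro g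
  by_contra hg
  obtain ⟨w, z, hz, hgz⟩ := T2.H245.exists_scalar_openSlab245 hN g
  have hmem : g * z ∈ {g : A0.G ℚ | φ g ≠ 0} ∩ T2.H245.openSlab245 ℚ := by
    refine ⟨?_, hgz⟩
    show φ (g * z) ≠ 0
    rw [hφ.arch_scalar w z hz g]
    exact hg
  rw [hempty] at hmem
  exact hmem

/-! ## 5. Fubini -/

theorem integrable_family670 (F : T2.Frame ℚ) {f ψ : A0.G ℚ → ℂ} (hf : IsAut670 f)
    (hψ : IsAut670 ψ) {wt : ℝ → ℂ} (hw : Continuous wt) {h : ℝ → GL (Fin 2) ℝ}
    (hh : Continuous h) (a b : ℝ) :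
    Integrable (Function.uncurry fun (θ : ℝ) (g : A0.G ℚ) =>
        wt θ * f (g * locInf (h θ)) * (starRingEnd ℂ) (ψ g))
      ((volume.restrict (Set.uIoc a b)).prod (F.μ.restrict F.D)) := by
  have : BorelSpace (A0.G ℚ) := ⟨rfl⟩
  have : IsFiniteMeasure (F.μ.restrict F.D) :=
    ⟨by rw [Measure.restrict_apply_univ]; exact F.fin⟩
  have : IsFiniteMeasure (volume.restrict (Set.uIoc a b)) :=
    ⟨by rw [Measure.restrict_apply_univ, Real.volume_uIoc]; exact ENNReal.ofReal_lt_top⟩
  obtain ⟨C, hC⟩ := hf.bdd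
  obtain ⟨C', hC'⟩ := hψ.bdd
  obtain ⟨W, hW⟩ := (isCompact_uIcc (a := a) (b := b)).exists_bound_of_continuousOn
    hw.continuousOn
  have hcont : Continuous (Function.uncurry fun (θ : ℝ) (g : A0.G ℚ) =>
      wt θ * f (g * locInf (h θ)) * (starRingEnd ℂ) (ψ g)) := by
    have h1 : Continuous fun p : ℝ × A0.G ℚ => p.2 * locInf (h p.1) :=
      continuous_snd.mul (continuous_locInf.comp (hh.comp continuous_fst))
    exact ((hw.comp continuous_fst).mul (hf.cont.comp h1)).mul
      (Complex.continuous_conj.comp (hψ.cont.comp continuous_snd))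
  refine Integrable.of_bound hcont.aestronglyMeasurable (W * C * C') ?_
  have hS : ∀ᵐ p ∂((volume.restrict (Set.uIoc a b)).prod (F.μ.restrict F.D)),
      p.1 ∈ Set.uIoc a b := by
    rw [ae_iff]
    have hset : {p : ℝ × A0.G ℚ | ¬ p.1 ∈ Set.uIoc a b} = (Set.uIoc a b)ᶜ ×ˢ Set.univ := by
      ext p
      simp
    rw [hset, Measure.prod_prod, Measure.restrict_apply measurableSet_uIoc.compl,
      Set.compl_inter_self, measure_empty, zero_mul]
  filter_upwards [hS] with p hp
  show ‖wt p.1 * f (p.2 * locInf (h p.1)) * (starRingEnd ℂ) (ψ p.2)‖ ≤ W * C * C'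
  rw [norm_mul, norm_mul, RCLike.norm_conj]
  have hW0 : 0 ≤ W := (norm_nonneg _).trans (hW p.1 (Set.uIoc_subset_uIcc hp))
  have hC0 : 0 ≤ C := (norm_nonneg _).trans (hC 1)
  exact mul_le_mul (mul_le_mul (hW p.1 (Set.uIoc_subset_uIcc hp)) (hC _) (norm_nonneg _) hW0)
    (hC' _) (norm_nonneg _) (mul_nonneg hW0 hC0)

/-- **Fubini**: the pairing commutes with a parametric interval integral. -/
theorem pair_integral670 (F : T2.Frame ℚ) {f ψ : A0.G ℚ → ℂ} (hf : IsAut670 f)
    (hψ : IsAut670 ψ) {wt : ℝ → ℂ} (hw : Continuous wt) {h : ℝ → GL (Fin 2) ℝ}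
    (hh : Continuous h) (a b : ℝ) :
    T2.pair F (fun g => ∫ θ in a..b, wt θ * f (g * locInf (h θ))) ψ
      = ∫ θ in a..b, wt θ * T2.pair F (fun g => f (g * locInf (h θ))) ψ := by
  have : BorelSpace (A0.G ℚ) := ⟨rfl⟩
  have : IsFiniteMeasure (F.μ.restrict F.D) :=
    ⟨by rw [Measure.restrict_apply_univ]; exact F.fin⟩
  unfold T2.pair
  have e1 : ∀ g : A0.G ℚ, (∫ θ in a..b, wt θ * f (g * locInf (h θ))) * (starRingEnd ℂ) (ψ g)
      = ∫ θ in a..b, wt θ * f (g * locInf (h θ)) * (starRingEnd ℂ) (ψ g) :=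
    fun g => (intervalIntegral.integral_mul_const _ _).symm
  have e2 : ∀ θ : ℝ, wt θ * ∫ g in F.D, f (g * locInf (h θ)) * (starRingEnd ℂ) (ψ g) ∂F.μ
      = ∫ g in F.D, wt θ * f (g * locInf (h θ)) * (starRingEnd ℂ) (ψ g) ∂F.μ := by
    intro θ
    rw [← integral_const_mul]
    refine integral_congr_ae (Filter.Eventually.of_forall fun g => ?_)
    show wt θ * (f _ * _) = _
    ring
  simp_rw [e1, e2]
  exact (intervalIntegral_integral_swap (integrable_family670 F hf hψ hw hh a b)).symm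

end Fermat.Agent.LT.H670.D3

end
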