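import Fermat.Agent.LT.H670.QOut.ApiInf

/-!
# Row LT, T6inf.08 = D3 (helper670, SZEGO-KERNEL route): the local part

OFF-MAIN.  Proved lemmas only (Mathlib + the concrete elements `kTheta`, `gzMat`, `scalR` of
`QOut/SpecA.lean`).

* `aT t = diag(e^{t/2}, e^{-t/2})`, `jj h = (a + d) + i (c - b)`, `Q0 h = 2 √(det h) / jj h`
  (the spherical function of weight one and parameter `0`);
* `kak` : Cartan decomposition in `GL₂(ℝ)⁺` with the value of `Q0`;
* `biK_eq` : a function on `GL₂(ℝ)` which is bi-equivariant of weight one under `SO(2)`, invariant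
  under the positive scalars and equal to `m 1 / cosh (t/2)` at `a_t` is `m 1 * Q0`;
* `Q0_gRel` : `Q0 (g_{z'}⁻¹ g_z) = 2 i √(y y') / (z - conj z')` (the Szegő kernel);
* `cauchy_szego`, `differentiableOn_of_cauchy` : Cauchy's formula for the kernel, and holomorphy
  of a continuous function which satisfies Cauchy's formula on every disc.
-/

set_option autoImplicit false

open UpperHalfPlane
open scoped MatrixGroups Real

noncomputable section

namespace Fermat.Agent.LT.H670.D3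

open Fermat.Agent.LT.H670.QOut

/-! ## 1. The elements -/

/-- `a_t = diag(e^{t/2}, e^{-t/2})` -/
def aT (t : ℝ) : GL (Fin 2) ℝ :=
  Matrix.GeneralLinearGroup.mkOfDetNeZero !![Real.exp (t / 2), 0; 0, Real.exp (-(t / 2))]
    (by
      rw [Matrix.det_fin_two_of, mul_zero, sub_zero, ← Real.exp_add, add_neg_cancel,
        Real.exp_zero]
      exact one_ne_zero)

theorem val_aT (t : ℝ) :
    ((aT t : GL (Fin 2) ℝ) : Matrix (Fin 2) (Fin 2) ℝ)
      = !![Real.exp (t / 2), 0; 0, Real.exp (-(t / 2))] := rfl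

/-- `J(h) = (a + d) + i (c - b)` -/
def jj (h : GL (Fin 2) ℝ) : ℂ :=
  ((h 0 0 + h 1 1 : ℝ) : ℂ) + Complex.I * ((h 1 0 - h 0 1 : ℝ) : ℂ)

/-- the spherical function of weight one and parameter `0` -/
def Q0 (h : GL (Fin 2) ℝ) : ℂ := 2 * ((Real.sqrt h.det.val : ℝ) : ℂ) / jj h

theorem det_val (h : GL (Fin 2) ℝ) : h.det.val = h 0 0 * h 1 1 - h 0 1 * h 1 0 := by
  rw [Matrix.GeneralLinearGroup.val_det_apply, Matrix.det_fin_two]

theorem kTheta_add (α β : ℝ) : kTheta (α + β) = kTheta α * kTheta β := by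
  apply Units.ext
  ext i j
  rw [Units.val_mul, val_kTheta, val_kTheta, val_kTheta, Real.cos_add, Real.sin_add]
  fin_cases i <;> fin_cases j <;> simp [Matrix.mul_apply, Fin.sum_univ_two] <;> ring

theorem kTheta_zero : kTheta 0 = 1 := by
  apply Units.ext
  ext i j
  rw [val_kTheta]
  fin_cases i <;> fin_cases j <;> simp

theorem kTheta_neg (α : ℝ) : kTheta (-α) = (kTheta α)⁻¹ := by
  rw [eq_inv_iff_mul_eq_one, ← kTheta_add, neg_add_cancel, kTheta_zero]

theorem aT_zero : aT 0 = 1 := by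
  apply Units.ext
  ext i j
  rw [val_aT]
  fin_cases i <;> fin_cases j <;> simp

/-! ## 2. Cartan decomposition -/

theorem exp_I_mul (x : ℝ) :
    Complex.exp (Complex.I * ((x : ℝ) : ℂ)) = ((Real.cos x : ℝ) : ℂ) + Complex.I * ((Real.sin x : ℝ) : ℂ) := by
  rw [mul_comm, Complex.exp_mul_I, ← Complex.ofReal_cos, ← Complex.ofReal_sin, mul_comm]

/-- **Cartan decomposition** in `GL₂(ℝ)⁺`, with the value of `Q0`. -/
theorem kak (h : GL (Fin 2) ℝ) (hdet : 0 < h.det.val) :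
    ∃ (α β t r : ℝ) (hr : 0 < r), 0 ≤ t ∧
      kTheta α * h * kTheta β = scalR r hr * aT t ∧
      Q0 h * (Complex.exp (Complex.I * ((α + β : ℝ) : ℂ)) * ((Real.cosh (t / 2) : ℝ) : ℂ)) = 1 := by
  have hD : h.det.val = h 0 0 * h 1 1 - h 0 1 * h 1 0 := det_val h
  set a := h 0 0 with ha
  set b := h 0 1 with hb
  set c := h 1 0 with hc
  set d := h 1 1 with hd
  set U : ℂ := ⟨a + d, b - c⟩ with hU
  set V : ℂ := ⟨a - d, -(b + c)⟩ with hV
  set ρ := ‖U‖ with hρ
  set ρ' := ‖V‖ with hρ'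
  have hρ2 : ρ ^ 2 = (a + d) ^ 2 + (b - c) ^ 2 := by
    rw [hρ, Complex.sq_norm, Complex.normSq_mk]; ring
  have hρ'2 : ρ' ^ 2 = (a - d) ^ 2 + (b + c) ^ 2 := by
    rw [hρ', Complex.sq_norm, Complex.normSq_mk]; ring
  have h4 : ρ ^ 2 - ρ' ^ 2 = 4 * h.det.val := by rw [hρ2, hρ'2, hD]; ring
  have hρ'0 : 0 ≤ ρ' := norm_nonneg _
  have hρ0 : 0 ≤ ρ := norm_nonneg _
  have hlt : ρ' < ρ :=
    (pow_lt_pow_iff_left₀ hρ'0 hρ0 two_ne_zero).1 (by linarith)
  have hρpos : 0 < ρ := lt_of_le_of_lt hρ'0 hlt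
  set φ := Complex.arg U with hφ
  set ψ := Complex.arg V with hψ
  have hc1 : ρ * Real.cos φ = a + d := Complex.norm_mul_cos_arg U
  have hs1 : ρ * Real.sin φ = b - c := Complex.norm_mul_sin_arg U
  have hc2 : ρ' * Real.cos ψ = a - d := Complex.norm_mul_cos_arg V
  have hs2 : ρ' * Real.sin ψ = -(b + c) := Complex.norm_mul_sin_arg V
  have t1 := Real.sin_sq_add_cos_sq φ
  have t2 := Real.sin_sq_add_cos_sq ψ
  set α := -(φ + ψ) / 2 with hα
  set β := -(φ - ψ) / 2 with hβ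
  have hab : α + β = -φ := by rw [hα, hβ]; ring
  have hab' : α - β = -ψ := by rw [hα, hβ]; ring
  have e1 : Real.cos α * Real.cos β - Real.sin α * Real.sin β = Real.cos φ := by
    rw [← Real.cos_add, hab, Real.cos_neg]
  have e2 : Real.sin α * Real.cos β + Real.cos α * Real.sin β = -Real.sin φ := by
    rw [← Real.sin_add, hab, Real.sin_neg]
  have e3 : Real.cos α * Real.cos β + Real.sin α * Real.sin β = Real.cos ψ := by
    rw [← Real.cos_sub, hab', Real.cos_neg]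
  have e4 : Real.sin α * Real.cos β - Real.cos α * Real.sin β = -Real.sin ψ := by
    rw [← Real.sin_sub, hab', Real.sin_neg]
  set r := Real.sqrt h.det.val with hr
  have hrpos : 0 < r := Real.sqrt_pos.2 hdet
  have hr2 : r ^ 2 = h.det.val := Real.sq_sqrt hdet.le
  have h4r : (ρ + ρ') * (ρ - ρ') = 4 * r ^ 2 := by rw [hr2, ← h4]; ring
  set E := (ρ + ρ') / (2 * r) with hE
  have hEpos : 0 < E := by positivity
  have h5 : (2 * r) ^ 2 ≤ (ρ + ρ') ^ 2 := by
    nlinarith [mul_nonneg hρ'0 (add_nonneg hρ0 hρ'0)]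
  have h6 : 2 * r ≤ ρ + ρ' :=
    (pow_le_pow_iff_left₀ (by positivity) (by positivity) two_ne_zero).1 h5
  have hE1 : 1 ≤ E := by
    rw [hE, le_div_iff₀ (by positivity)]
    linarith
  set t := 2 * Real.log E with ht
  have ht0 : 0 ≤ t := by
    have := Real.log_nonneg hE1
    rw [ht]; linarith
  have hexp : Real.exp (t / 2) = E := by
    rw [ht, mul_div_cancel_left₀ _ (two_ne_zero), Real.exp_log hEpos]
  have hexpn : Real.exp (-(t / 2)) = (ρ - ρ') / (2 * r) := by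
    rw [Real.exp_neg, hexp, hE, inv_div, div_eq_div_iff (by positivity) (by positivity)]
    linear_combination -h4r
  refine ⟨α, β, t, r, hrpos, ht0, ?_, ?_⟩
  · apply Units.ext
    have hh : ((h : GL (Fin 2) ℝ) : Matrix (Fin 2) (Fin 2) ℝ) = !![a, b; c, d] :=
      Matrix.eta_fin_two _
    ext i j
    rw [Units.val_mul, Units.val_mul, Units.val_mul, val_kTheta, val_kTheta, val_scalR, val_aT,
      hexp, hexpn, hE, hh]
    have hr0 : r ≠ 0 := hrpos.ne'
    fin_cases i <;> fin_cases j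
    · simp [Matrix.mul_apply, Fin.sum_univ_two]
      field_simp
      linear_combination ((a + d)) * e1 + ((a - d)) * e3 + (c - b) * e2 + (c + b) * e4
        - Real.cos φ * hc1 - Real.sin φ * hs1 + ρ * t1 - Real.cos ψ * hc2 - Real.sin ψ * hs2
        + ρ' * t2
    · simp [Matrix.mul_apply, Fin.sum_univ_two]
      linear_combination ((a + d) / 2) * e2 + ((b - c) / 2) * e1 - ((a - d) / 2) * e4
        + ((b + c) / 2) * e3 + (Real.sin φ / 2) * hc1 - (Real.cos φ / 2) * hs1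
        - (Real.sin ψ / 2) * hc2 + (Real.cos ψ / 2) * hs2
    · simp [Matrix.mul_apply, Fin.sum_univ_two]
      linear_combination -((a + d) / 2) * e2 - ((b - c) / 2) * e1 - ((a - d) / 2) * e4
        + ((b + c) / 2) * e3 - (Real.sin φ / 2) * hc1 + (Real.cos φ / 2) * hs1
        - (Real.sin ψ / 2) * hc2 + (Real.cos ψ / 2) * hs2
    · simp [Matrix.mul_apply, Fin.sum_univ_two]
      field_simp
      linear_combination (a + d) * e1 - (b - c) * e2 - (a - d) * e3 - (b + c) * e4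
        - Real.cos φ * hc1 - Real.sin φ * hs1 + ρ * t1 + Real.cos ψ * hc2 + Real.sin ψ * hs2
        - ρ' * t2
  · have hjj : jj h = ((ρ : ℝ) : ℂ) * Complex.exp (Complex.I * ((α + β : ℝ) : ℂ)) := by
      rw [exp_I_mul, hab, Real.cos_neg, Real.sin_neg]
      have hj : jj h = (((a + d : ℝ)) : ℂ) + Complex.I * (((c - b : ℝ)) : ℂ) := rfl
      rw [hj, ← hc1, show c - b = -(ρ * Real.sin φ) by rw [hs1]; ring]
      push_cast
      ring
    have hcosh : Real.cosh (t / 2) = ρ / (2 * r) := by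
      rw [Real.cosh_eq, hexp, hexpn, hE]
      field_simp
      ring
    have hexp0 : Complex.exp (Complex.I * ((α + β : ℝ) : ℂ)) ≠ 0 := Complex.exp_ne_zero _
    have hρC : ((ρ : ℝ) : ℂ) ≠ 0 := by exact_mod_cast hρpos.ne'
    have hrC : ((r : ℝ) : ℂ) ≠ 0 := by exact_mod_cast hrpos.ne'
    unfold Q0
    rw [hjj, hcosh, ← hr]
    push_cast
    field_simp

theorem scalR_mul_aT (r : ℝ) (hr : 0 < r) (t : ℝ) : scalR r hr * aT t = aT t * scalR r hr := by
  apply Units.ext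
  ext i j
  rw [Units.val_mul, Units.val_mul, val_scalR, val_aT]
  fin_cases i <;> fin_cases j <;> simp [Matrix.mul_apply, Fin.sum_univ_two] <;> ring

/-- A function on `GL₂(ℝ)` which is bi-equivariant of weight one under `SO(2)`, invariant under
the positive scalars, and equal to `m 1 / cosh (t/2)` at `a_t` (`t > 0`) is `m 1 * Q0` on
`GL₂(ℝ)⁺`. -/
theorem biK_eq (m : GL (Fin 2) ℝ → ℂ)
    (hL : ∀ (θ : ℝ) (h : GL (Fin 2) ℝ),
      m (kTheta θ * h) = Complex.exp (Complex.I * ((θ : ℝ) : ℂ)) * m h)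
    (hR : ∀ (θ : ℝ) (h : GL (Fin 2) ℝ),
      m (h * kTheta θ) = Complex.exp (Complex.I * ((θ : ℝ) : ℂ)) * m h)
    (hS : ∀ (r : ℝ) (hr : 0 < r) (h : GL (Fin 2) ℝ), m (h * scalR r hr) = m h)
    (hA : ∀ t : ℝ, 0 < t → m (aT t) = m 1 / ((Real.cosh (t / 2) : ℝ) : ℂ))
    (h : GL (Fin 2) ℝ) (hdet : 0 < h.det.val) : m h = m 1 * Q0 h := by
  obtain ⟨α, β, t, r, hr, ht, hkak, hQ⟩ := kak h hdet
  have hA' : m (aT t) = m 1 / ((Real.cosh (t / 2) : ℝ) : ℂ) := by
    rcases ht.lt_or_eq with h1 | h1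
    · exact hA t h1
    · rw [← h1, aT_zero]
      simp
  have h1 : m (kTheta α * h * kTheta β)
      = Complex.exp (Complex.I * ((α + β : ℝ) : ℂ)) * m h := by
    rw [hR, mul_assoc] at *
    rw [hL, ← mul_assoc, ← Complex.exp_add]
    congr 2
    push_cast
    ring
  rw [hkak, scalR_mul_aT, hS, hA'] at h1
  have hcosh : ((Real.cosh (t / 2) : ℝ) : ℂ) ≠ 0 := by
    exact_mod_cast (Real.cosh_pos _).ne'
  have hexp0 : Complex.exp (Complex.I * ((α + β : ℝ) : ℂ)) ≠ 0 := Complex.exp_ne_zero _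
  have hQ' : Q0 h = (Complex.exp (Complex.I * ((α + β : ℝ) : ℂ)) *
      ((Real.cosh (t / 2) : ℝ) : ℂ))⁻¹ := eq_inv_of_mul_eq_one_left hQ
  have h2 : m h = m 1 / ((Real.cosh (t / 2) : ℝ) : ℂ) /
      Complex.exp (Complex.I * ((α + β : ℝ) : ℂ)) := by
    rw [h1]
    field_simp
  rw [h2, hQ']
  field_simp

/-! ## 3. The Szegő kernel -/

/-- `g_{z'}⁻¹ g_z = [[y/y', (x - x')/y'], [0, 1]]` -/
def gRel (z z' : ℍ) : GL (Fin 2) ℝ :=
  Matrix.GeneralLinearGroup.mkOfDetNeZero !![z.im / z'.im, (z.re - z'.re) / z'.im; 0, 1]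
    (by
      rw [Matrix.det_fin_two_of]
      simpa using (div_pos z.im_pos z'.im_pos).ne')

theorem val_gRel (z z' : ℍ) :
    ((gRel z z' : GL (Fin 2) ℝ) : Matrix (Fin 2) (Fin 2) ℝ)
      = !![z.im / z'.im, (z.re - z'.re) / z'.im; 0, 1] := rfl

theorem gzMat_mul_gRel (z z' : ℍ) : gzMat z' * gRel z z' = gzMat z := by
  apply Units.ext
  have hy : z'.im ≠ 0 := z'.im_pos.ne'
  ext i j
  rw [Units.val_mul, val_gzMat, val_gRel, val_gzMat]
  fin_cases i <;> fin_cases j <;> simp [Matrix.mul_apply, Fin.sum_univ_two] <;> field_simp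
  ring

theorem gzMat_inv_mul (z z' : ℍ) : (gzMat z')⁻¹ * gzMat z = gRel z z' := by
  rw [inv_mul_eq_iff_eq_mul, gzMat_mul_gRel]

theorem det_gRel (z z' : ℍ) : (gRel z z').det.val = z.im / z'.im := by
  rw [Matrix.GeneralLinearGroup.val_det_apply, val_gRel, Matrix.det_fin_two_of]
  ring

theorem det_gRel_pos (z z' : ℍ) : 0 < (gRel z z').det.val := by
  rw [det_gRel]
  exact div_pos z.im_pos z'.im_pos

/-- **The Szegő kernel.** -/
theorem Q0_gRel (z z' : ℍ) :
    (((Real.sqrt z.im : ℝ) : ℂ))⁻¹ * (((Real.sqrt z'.im : ℝ) : ℂ))⁻¹ * Q0 (gRel z z')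
      = 2 * Complex.I / ((z : ℂ) - (starRingEnd ℂ) (z' : ℂ)) := by
  have hy : 0 < z.im := z.im_pos
  have hy' : 0 < z'.im := z'.im_pos
  have hsy : ((Real.sqrt z.im : ℝ) : ℂ) ≠ 0 := sqrt_im_ne_zero z
  have hsy' : ((Real.sqrt z'.im : ℝ) : ℂ) ≠ 0 := sqrt_im_ne_zero z'
  have hyC : ((z'.im : ℝ) : ℂ) ≠ 0 := by exact_mod_cast hy'.ne'
  have hsq : ((Real.sqrt z'.im : ℝ) : ℂ) * ((Real.sqrt z'.im : ℝ) : ℂ) = ((z'.im : ℝ) : ℂ) := by
    rw [← Complex.ofReal_mul, Real.mul_self_sqrt hy'.le]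
  have hden : (z : ℂ) - (starRingEnd ℂ) (z' : ℂ) ≠ 0 := by
    intro h0
    have := congrArg Complex.im h0
    simp at this
    linarith
  have hjj : jj (gRel z z') * (Complex.I * ((z'.im : ℝ) : ℂ))
      = (z : ℂ) - (starRingEnd ℂ) (z' : ℂ) := by
    have hj : jj (gRel z z') = (((z.im / z'.im + 1 : ℝ)) : ℂ)
        + Complex.I * (((0 - (z.re - z'.re) / z'.im : ℝ)) : ℂ) := rfl
    rw [hj]
    apply Complex.ext
    · simp
      field_simp
    · simp
      field_simp
  have hjj0 : jj (gRel z z') ≠ 0 := by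
    intro h0
    rw [h0, zero_mul] at hjj
    exact hden hjj.symm
  unfold Q0
  rw [det_gRel, Real.sqrt_div hy.le, ← hjj]
  push_cast
  field_simp
  rw [← hsq]
  ring_nf

/-! ## 4. Cauchy's formula -/

open Metric in
/-- Cauchy's formula for the kernel `z ↦ (z - p)⁻¹`, `p` outside the closed disc. -/
theorem cauchy_szego {c : ℂ} {R : ℝ} {z₀ p : ℂ} (hz₀ : z₀ ∈ ball c R)
    (hp : p ∉ closedBall c R) :
    ((2 * π * Complex.I : ℂ)⁻¹ • ∮ z in C(c, R), (z - z₀)⁻¹ • (z - p)⁻¹) = (z₀ - p)⁻¹ := by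
  refine Complex.two_pi_I_inv_smul_circleIntegral_sub_inv_smul_of_differentiable_on_off_countable
    (f := fun z => (z - p)⁻¹) Set.countable_empty hz₀ ?_ ?_
  · exact ContinuousOn.inv₀ (by fun_prop) (fun z hz => sub_ne_zero.2 (fun h => hp (h ▸ hz)))
  · intro x hx
    have hne : x - p ≠ 0 := sub_ne_zero.2 (fun h => hp (h ▸ ball_subset_closedBall hx.1))
    exact (differentiableAt_id.sub_const p).inv hne

open Metric in
/-- A continuous function which satisfies Cauchy's integral formula on every closed disc of an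
open set is holomorphic there. -/
theorem differentiableOn_of_cauchy {U : Set ℂ} (hU : IsOpen U) {f : ℂ → ℂ}
    (hf : ContinuousOn f U)
    (h : ∀ (c : ℂ) (R : ℝ), 0 < R → closedBall c R ⊆ U → ∀ w ∈ ball c R,
      ((2 * π * Complex.I : ℂ)⁻¹ • ∮ z in C(c, R), (z - w)⁻¹ • f z) = f w) :
    DifferentiableOn ℂ f U := by
  intro x hx
  obtain ⟨R, hR, hRU⟩ := Metric.nhds_basis_closedBall.mem_iff.1 (hU.mem_nhds hx)
  have hci : CircleIntegrable f x R :=
    (hf.mono (sphere_subset_closedBall.trans hRU)).circleIntegrable hR.le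
  lift R to NNReal using hR.le
  have hR' : (0 : NNReal) < R := by exact_mod_cast hR
  have hps := hasFPowerSeriesOn_cauchy_integral hci hR'
  have han := hps.analyticAt
  have heq : f =ᶠ[nhds x]
      fun w => (2 * π * Complex.I : ℂ)⁻¹ • ∮ z in C(x, R), (z - w)⁻¹ • f z := by
    filter_upwards [ball_mem_nhds x hR] with w hw
    exact (h x R hR hRU w hw).symm
  exact (han.differentiableAt.congr_of_eventuallyEq heq).differentiableWithinAt

end Fermat.Agent.LT.H670.D3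

end
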