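import Fermat.Agent.LT.H670.D3.Frame

/-!
# Row LT, T6inf.08 = D3 (helper670, SZEGO-KERNEL route): the global argument

OFF-MAIN.  Proved lemmas only.

`e` : bounded continuous on `GL₂(𝔸_ℚ)`, left `GL₂(ℚ)`-invariant, invariant under the positive real
scalars (`IsAut670 e`), of weight one (`hwt`), with the weight-one mean-value property of
parameter `0` (`hmv`).  `F` a frame (Haar measure + strict fundamental domain of finite volume).

* `mc F e h = ⟨R_h e, e⟩` : the matrix coefficient; `mc_eq : mc F e h = mc F e 1 * Q0 h`;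
* `pair_vF : ⟨v_z, v_z'⟩ = mc F e 1 * (2 i / (z - conj z'))`, `v_z = y^{-1/2} R_{g_z} e`;
* `cauchy_vF` : every `z ↦ v_z(g)` satisfies Cauchy's integral formula on every closed disc of `ℍ`;
* `mdifferentiable_vF` : `z ↦ y^{-1/2} e(g g_z)` is holomorphic on `ℍ`, for EVERY `g`.
-/

set_option autoImplicit false

open IsDedekindDomain NumberField MeasureTheory
open UpperHalfPlane
open scoped MatrixGroups Real Manifold

noncomputable section

namespace Fermat.Agent.LT.H670.D3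

open Fermat.Agent.LT.H556 Fermat.Agent.LT.H670.QOut Fermat.Agent.LT

attribute [local instance] Fermat.Agent.LT.T2.borelG

/-- the right translate of `e` by `locInf h` -/
def eR (e : A0.G ℚ → ℂ) (h : GL (Fin 2) ℝ) : A0.G ℚ → ℂ := fun g => e (g * locInf h)

/-- the matrix coefficient `⟨R_h e, e⟩` -/
def mc (F : T2.Frame ℚ) (e : A0.G ℚ → ℂ) (h : GL (Fin 2) ℝ) : ℂ := T2.pair F (eR e h) e

theorem eR_one (e : A0.G ℚ → ℂ) : eR e 1 = e := by
  funext g
  show e (g * locInf 1) = e g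
  rw [map_one, mul_one]

theorem IsAut670.eR {e : A0.G ℚ → ℂ} (he : IsAut670 e) (h : GL (Fin 2) ℝ) : IsAut670 (eR e h) :=
  he.shift h

section Coeff

variable (hN : T1.AdNormC ℚ) (hU : T1.UnimodC ℚ) (F : T2.Frame ℚ) {e : A0.G ℚ → ℂ}
  (he : IsAut670 e)

include hN hU he in
theorem pair_eR (h₁ h₂ : GL (Fin 2) ℝ) :
    T2.pair F (eR e h₁) (eR e h₂) = mc F e (h₂⁻¹ * h₁) := by
  have key := pair_shift670 hN hU F (he.eR h₁) (he.eR h₂) (locInf h₂⁻¹)
  rw [← key]
  have e1 : (fun g => eR e h₁ (g * locInf h₂⁻¹)) = eR e (h₂⁻¹ * h₁) := by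
    funext g
    show e (g * locInf h₂⁻¹ * locInf h₁) = e (g * locInf (h₂⁻¹ * h₁))
    rw [map_mul, mul_assoc]
  have e2 : (fun g => eR e h₂ (g * locInf h₂⁻¹)) = e := by
    funext g
    show e (g * locInf h₂⁻¹ * locInf h₂) = e g
    rw [mul_assoc, ← map_mul, inv_mul_cancel, map_one, mul_one]
  rw [e1, e2]
  rfl

variable (hwt : ∀ (θ : ℝ) (g : A0.G ℚ),
    e (g * locInf (kTheta θ)) = Complex.exp (Complex.I * ((θ : ℝ) : ℂ)) * e g)

include hwt in
theorem eR_mul_kTheta (h : GL (Fin 2) ℝ) (θ : ℝ) :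
    eR e (h * kTheta θ) = fun g => Complex.exp (Complex.I * ((θ : ℝ) : ℂ)) * eR e h g := by
  funext g
  show e (g * locInf (h * kTheta θ)) = _ * e (g * locInf h)
  rw [map_mul, ← mul_assoc, hwt]

include hwt in
theorem mc_mul_kTheta (h : GL (Fin 2) ℝ) (θ : ℝ) :
    mc F e (h * kTheta θ) = Complex.exp (Complex.I * ((θ : ℝ) : ℂ)) * mc F e h := by
  unfold mc
  rw [eR_mul_kTheta hwt, pair_const_mul670]

include hN hU he hwt in
theorem mc_kTheta_mul (h : GL (Fin 2) ℝ) (θ : ℝ) :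
    mc F e (kTheta θ * h) = Complex.exp (Complex.I * ((θ : ℝ) : ℂ)) * mc F e h := by
  have h1 := pair_eR hN hU F he h (kTheta (-θ))
  rw [kTheta_neg, inv_inv] at h1
  rw [← h1, ← kTheta_neg]
  have h2 : eR e (kTheta (-θ))
      = fun g => Complex.exp (Complex.I * (((-θ : ℝ)) : ℂ)) * eR e 1 g := by
    rw [← eR_mul_kTheta hwt, one_mul]
  rw [h2, eR_one, pair_conj670, pair_const_mul670, map_mul, ← pair_conj670]
  unfold mc
  congr 1
  rw [← Complex.exp_conj]
  congr 1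
  simp

include he in
theorem mc_mul_scalR (h : GL (Fin 2) ℝ) (r : ℝ) (hr : 0 < r) :
    mc F e (h * scalR r hr) = mc F e h := by
  unfold mc
  congr 1
  funext g
  show e (g * locInf (h * scalR r hr)) = e (g * locInf h)
  rw [map_mul, ← mul_assoc]
  exact he.arch_scalar Rat.infinitePlace _ (isArchPosScalar_scalR _ r hr) _

end Coeff

section MeanValue

variable (hN : T1.AdNormC ℚ) (hU : T1.UnimodC ℚ) (F : T2.Frame ℚ) {e : A0.G ℚ → ℂ}
  (he : IsAut670 e)
  (hwt : ∀ (θ : ℝ) (g : A0.G ℚ),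
    e (g * locInf (kTheta θ)) = Complex.exp (Complex.I * ((θ : ℝ) : ℂ)) * e g)
  (hmv : ∀ t : ℝ, 0 < t → ∀ g : A0.G ℚ,
    (∫ θ in (0 : ℝ)..(2 * π),
      Complex.exp (-(Complex.I * ((θ : ℝ) : ℂ))) * e (g * locInf (kTheta θ * aT t)))
      = ((2 * π / Real.cosh (t / 2) : ℝ) : ℂ) * e g)

include hN hU he hwt hmv in
theorem mc_aT (t : ℝ) (ht : 0 < t) :
    mc F e (aT t) = mc F e 1 / ((Real.cosh (t / 2) : ℝ) : ℂ) := by
  have hw : Continuous fun θ : ℝ => Complex.exp (-(Complex.I * ((θ : ℝ) : ℂ))) := by fun_prop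
  have hh : Continuous fun θ : ℝ => kTheta θ * aT t := continuous_kTheta.mul continuous_const
  have key := pair_integral670 F he he hw hh 0 (2 * π)
  have hL : (fun g => ∫ θ in (0 : ℝ)..(2 * π),
      Complex.exp (-(Complex.I * ((θ : ℝ) : ℂ))) * e (g * locInf (kTheta θ * aT t)))
      = fun g => ((2 * π / Real.cosh (t / 2) : ℝ) : ℂ) * e g := by
    funext g
    exact hmv t ht g
  rw [hL, pair_const_mul670] at key
  have hR : ∀ θ : ℝ, Complex.exp (-(Complex.I * ((θ : ℝ) : ℂ))) *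
      T2.pair F (fun g => e (g * locInf (kTheta θ * aT t))) e = mc F e (aT t) := by
    intro θ
    have h1 : T2.pair F (fun g => e (g * locInf (kTheta θ * aT t))) e
        = mc F e (kTheta θ * aT t) := rfl
    rw [h1, mc_kTheta_mul hN hU F he hwt, ← mul_assoc, ← Complex.exp_add, neg_add_cancel,
      Complex.exp_zero, one_mul]
  simp_rw [hR] at key
  rw [intervalIntegral.integral_const, sub_zero] at key
  have h1 : T2.pair F e e = mc F e 1 := by
    unfold mc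
    rw [eR_one]
  rw [h1] at key
  have hcosh : ((Real.cosh (t / 2) : ℝ) : ℂ) ≠ 0 := by
    exact_mod_cast (Real.cosh_pos _).ne'
  have hpi : ((2 * π : ℝ) : ℂ) ≠ 0 := by
    exact_mod_cast (by positivity : (2 * π : ℝ) ≠ 0)
  rw [Complex.real_smul, Complex.ofReal_div] at key
  have key' : ((2 * π : ℝ) : ℂ) * (mc F e 1 / ((Real.cosh (t / 2) : ℝ) : ℂ))
      = ((2 * π : ℝ) : ℂ) * mc F e (aT t) := by
    rw [← key]
    field_simp
  exact (mul_left_cancel₀ hpi key').symm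

include hN hU he hwt hmv in
/-- **The matrix coefficient is the spherical function.** -/
theorem mc_eq (h : GL (Fin 2) ℝ) (hdet : 0 < h.det.val) : mc F e h = mc F e 1 * Q0 h :=
  biK_eq (mc F e) (fun θ h => mc_kTheta_mul hN hU F he hwt h θ)
    (fun θ h => mc_mul_kTheta F hwt h θ) (fun r hr h => mc_mul_scalR F he h r hr)
    (fun t ht => mc_aT hN hU F he hwt hmv t ht) h hdet

end MeanValue

/-! ## The Szegő kernel -/

/-- `v_z = y^{-1/2} R_{g_z} e` -/
def vF (e : A0.G ℚ → ℂ) (z : ℍ) : A0.G ℚ → ℂ :=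
  fun g => (((Real.sqrt z.im : ℝ) : ℂ))⁻¹ * e (g * locInf (gzMat z))

theorem IsAut670.vF {e : A0.G ℚ → ℂ} (he : IsAut670 e) (z : ℍ) : IsAut670 (vF e z) :=
  (he.eR (gzMat z)).const_mul _

theorem continuous_vF {e : A0.G ℚ → ℂ} (he : Continuous e) (g : A0.G ℚ) :
    Continuous fun z : ℍ => vF e z g := by
  have h1 : Continuous fun z : ℍ => (((Real.sqrt z.im : ℝ) : ℂ))⁻¹ := by
    refine Continuous.inv₀ ?_ (fun z => sqrt_im_ne_zero z)
    exact Complex.continuous_ofReal.comp (Real.continuous_sqrt.comp UpperHalfPlane.continuous_im)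
  have h2 : Continuous fun z : ℍ => e (g * locInf (gzMat z)) :=
    he.comp (continuous_const.mul (continuous_locInf.comp continuous_gzMat))
  exact h1.mul h2

section Kernel

variable (hN : T1.AdNormC ℚ) (hU : T1.UnimodC ℚ) (F : T2.Frame ℚ) {e : A0.G ℚ → ℂ}
  (he : IsAut670 e)
  (hwt : ∀ (θ : ℝ) (g : A0.G ℚ),
    e (g * locInf (kTheta θ)) = Complex.exp (Complex.I * ((θ : ℝ) : ℂ)) * e g)
  (hmv : ∀ t : ℝ, 0 < t → ∀ g : A0.G ℚ,
    (∫ θ in (0 : ℝ)..(2 * π),
      Complex.exp (-(Complex.I * ((θ : ℝ) : ℂ))) * e (g * locInf (kTheta θ * aT t)))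
      = ((2 * π / Real.cosh (t / 2) : ℝ) : ℂ) * e g)

include hN hU he hwt hmv in
/-- **The reproducing kernel of the translates is the Szegő kernel.** -/
theorem pair_vF (z z' : ℍ) :
    T2.pair F (vF e z) (vF e z')
      = mc F e 1 * (2 * Complex.I / ((z : ℂ) - (starRingEnd ℂ) (z' : ℂ))) := by
  have h1 : vF e z = fun g => (((Real.sqrt z.im : ℝ) : ℂ))⁻¹ * eR e (gzMat z) g := rfl
  have h2 : vF e z' = fun g => (((Real.sqrt z'.im : ℝ) : ℂ))⁻¹ * eR e (gzMat z') g := rfl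
  rw [h1, pair_const_mul670, h2, pair_conj670, pair_const_mul670, map_mul, ← pair_conj670,
    pair_eR hN hU F he, gzMat_inv_mul, mc_eq hN hU F he hwt hmv _ (det_gRel_pos z z'),
    ← Q0_gRel z z']
  have hc : (starRingEnd ℂ) (((Real.sqrt z'.im : ℝ) : ℂ))⁻¹ = (((Real.sqrt z'.im : ℝ) : ℂ))⁻¹ := by
    rw [map_inv₀, Complex.conj_ofReal]
  rw [hc]
  ring

end Kernel

/-! ## Cauchy's integral formula for the translates -/

section Circle

open Metric

/-- the point of the circle, as an element of `ℍ` -/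
def zH (c : ℂ) (R : ℝ) (θ : ℝ) : ℍ := ofComplex (circleMap c R θ)

variable {c : ℂ} {R : ℝ}

theorem im_circleMap_pos (hR : 0 < R) (hcl : closedBall c R ⊆ {z : ℂ | 0 < z.im}) (θ : ℝ) :
    0 < (circleMap c R θ).im :=
  hcl (sphere_subset_closedBall (circleMap_mem_sphere c hR.le θ))

theorem coe_zH (hR : 0 < R) (hcl : closedBall c R ⊆ {z : ℂ | 0 < z.im}) (θ : ℝ) :
    ((zH c R θ : ℍ) : ℂ) = circleMap c R θ := by
  rw [zH, ofComplex_apply_of_im_pos (im_circleMap_pos hR hcl θ)]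

theorem continuous_zH (hR : 0 < R) (hcl : closedBall c R ⊆ {z : ℂ | 0 < z.im}) :
    Continuous (zH c R) := by
  refine continuous_iff_continuousAt.2 fun θ => ?_
  have h1 : ContinuousAt ofComplex (circleMap c R θ) :=
    (contMDiffAt_ofComplex (n := 0) (im_circleMap_pos hR hcl θ)).continuousAt
  exact ContinuousAt.comp (f := circleMap c R) (g := ofComplex) h1
    (continuous_circleMap c R).continuousAt

/-- the weight of the Cauchy integral -/
def wtC (c : ℂ) (R : ℝ) (z₀ : ℂ) (θ : ℝ) : ℂ :=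
  circleMap 0 R θ * Complex.I * (circleMap c R θ - z₀)⁻¹ *
    (((Real.sqrt (zH c R θ).im : ℝ) : ℂ))⁻¹

theorem continuous_wtC (hR : 0 < R) (hcl : closedBall c R ⊆ {z : ℂ | 0 < z.im}) {z₀ : ℂ}
    (hz₀ : z₀ ∈ ball c R) : Continuous (wtC c R z₀) := by
  have h1 : Continuous fun θ : ℝ => (circleMap c R θ - z₀)⁻¹ :=
    Continuous.inv₀ ((continuous_circleMap c R).sub continuous_const)
      (fun θ => sub_ne_zero.2 (circleMap_ne_mem_ball hz₀ θ))
  have h2 : Continuous fun θ : ℝ => (((Real.sqrt (zH c R θ).im : ℝ) : ℂ))⁻¹ := by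
    refine Continuous.inv₀ ?_ (fun θ => sqrt_im_ne_zero _)
    exact Complex.continuous_ofReal.comp
      (Real.continuous_sqrt.comp (UpperHalfPlane.continuous_im.comp (continuous_zH hR hcl)))
  exact (((continuous_circleMap 0 R).mul continuous_const).mul h1).mul h2

/-- the Cauchy integral of the family `z ↦ v_z`, as a function on the group -/
def AF (e : A0.G ℚ → ℂ) (c : ℂ) (R : ℝ) (z₀ : ℂ) : A0.G ℚ → ℂ :=
  fun g => (2 * π * Complex.I : ℂ)⁻¹ *
    ∫ θ in (0 : ℝ)..(2 * π), wtC c R z₀ θ * e (g * locInf (gzMat (zH c R θ)))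

theorem circleIntegral_eq_AF (e : A0.G ℚ → ℂ) (c : ℂ) (R : ℝ) (z₀ : ℂ) (g : A0.G ℚ) :
    ((2 * π * Complex.I : ℂ)⁻¹ • ∮ z in C(c, R), (z - z₀)⁻¹ • vF e (ofComplex z) g)
      = AF e c R z₀ g := by
  unfold circleIntegral AF
  rw [smul_eq_mul]
  congr 1
  refine intervalIntegral.integral_congr fun θ _ => ?_
  simp only [deriv_circleMap, smul_eq_mul, vF, wtC, zH]
  ring

/-- the defect of Cauchy's formula -/
def DF (e : A0.G ℚ → ℂ) (c : ℂ) (R : ℝ) (z₀ : ℂ) : A0.G ℚ → ℂ :=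
  fun g => vF e (ofComplex z₀) g - AF e c R z₀ g

theorem IsAut670.AF {e : A0.G ℚ → ℂ} (he : IsAut670 e) (hR : 0 < R)
    (hcl : closedBall c R ⊆ {z : ℂ | 0 < z.im}) {z₀ : ℂ} (hz₀ : z₀ ∈ ball c R) :
    IsAut670 (AF e c R z₀) :=
  (he.integral (continuous_wtC hR hcl hz₀) (continuous_gzMat.comp (continuous_zH hR hcl))
    0 (2 * π)).const_mul _

theorem IsAut670.DF {e : A0.G ℚ → ℂ} (he : IsAut670 e) (hR : 0 < R)
    (hcl : closedBall c R ⊆ {z : ℂ | 0 < z.im}) {z₀ : ℂ} (hz₀ : z₀ ∈ ball c R) :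
    IsAut670 (DF e c R z₀) :=
  (he.vF _).sub (he.AF hR hcl hz₀)

end Circle

section Cauchy

open Metric

variable (hN : T1.AdNormC ℚ) (hU : T1.UnimodC ℚ) (F : T2.Frame ℚ) {e : A0.G ℚ → ℂ}
  (he : IsAut670 e)
  (hwt : ∀ (θ : ℝ) (g : A0.G ℚ),
    e (g * locInf (kTheta θ)) = Complex.exp (Complex.I * ((θ : ℝ) : ℂ)) * e g)
  (hmv : ∀ t : ℝ, 0 < t → ∀ g : A0.G ℚ,
    (∫ θ in (0 : ℝ)..(2 * π),
      Complex.exp (-(Complex.I * ((θ : ℝ) : ℂ))) * e (g * locInf (kTheta θ * aT t)))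
      = ((2 * π / Real.cosh (t / 2) : ℝ) : ℂ) * e g)
  {c : ℂ} {R : ℝ} (hR : 0 < R) (hcl : closedBall c R ⊆ {z : ℂ | 0 < z.im}) {z₀ : ℂ}
  (hz₀ : z₀ ∈ ball c R)

include hN hU he hwt hmv hR hcl hz₀ in
/-- the pairing of the Cauchy integral with `v_z` (Fubini + Cauchy for the Szegő kernel) -/
theorem pair_AF_vF (z : ℍ) :
    T2.pair F (AF e c R z₀) (vF e z)
      = mc F e 1 * (2 * Complex.I / (z₀ - (starRingEnd ℂ) (z : ℂ))) := by
  have hw := continuous_wtC hR hcl hz₀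
  have hh : Continuous fun θ : ℝ => gzMat (zH c R θ) :=
    continuous_gzMat.comp (continuous_zH hR hcl)
  have h1 : AF e c R z₀ = fun g => (2 * π * Complex.I : ℂ)⁻¹ *
      ∫ θ in (0 : ℝ)..(2 * π), wtC c R z₀ θ * e (g * locInf (gzMat (zH c R θ))) := rfl
  rw [h1, pair_const_mul670, pair_integral670 F he (he.vF z) hw hh 0 (2 * π)]
  have hp : (starRingEnd ℂ) (z : ℂ) ∉ closedBall c R := by
    intro hmem
    have h2 : 0 < ((starRingEnd ℂ) (z : ℂ)).im := hcl hmem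
    rw [Complex.conj_im] at h2
    have := z.im_pos
    simp at h2
    linarith
  have hθ : ∀ θ : ℝ, wtC c R z₀ θ *
      T2.pair F (fun g => e (g * locInf (gzMat (zH c R θ)))) (vF e z)
      = (mc F e 1 * (2 * Complex.I)) * (deriv (circleMap c R) θ •
          ((circleMap c R θ - z₀)⁻¹ • (circleMap c R θ - (starRingEnd ℂ) (z : ℂ))⁻¹)) := by
    intro θ
    have h3 := pair_vF hN hU F he hwt hmv (zH c R θ) z
    have h4 : vF e (zH c R θ) = fun g => (((Real.sqrt (zH c R θ).im : ℝ) : ℂ))⁻¹ *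
        e (g * locInf (gzMat (zH c R θ))) := rfl
    rw [h4, pair_const_mul670, coe_zH hR hcl] at h3
    have h5 : wtC c R z₀ θ * T2.pair F (fun g => e (g * locInf (gzMat (zH c R θ)))) (vF e z)
        = circleMap 0 R θ * Complex.I * (circleMap c R θ - z₀)⁻¹ *
          ((((Real.sqrt (zH c R θ).im : ℝ) : ℂ))⁻¹ *
            T2.pair F (fun g => e (g * locInf (gzMat (zH c R θ)))) (vF e z)) := by
      unfold wtC
      ring
    rw [h5, h3, deriv_circleMap, smul_eq_mul, smul_eq_mul]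
    ring
  simp_rw [hθ]
  rw [intervalIntegral.integral_const_mul]
  have hC := cauchy_szego hz₀ hp
  unfold circleIntegral at hC
  rw [smul_eq_mul] at hC
  have hfin : (2 * π * Complex.I : ℂ)⁻¹ * (mc F e 1 * (2 * Complex.I) *
      ∫ θ in (0 : ℝ)..(2 * π), deriv (circleMap c R) θ •
        ((circleMap c R θ - z₀)⁻¹ • (circleMap c R θ - (starRingEnd ℂ) (z : ℂ))⁻¹))
      = mc F e 1 * (2 * Complex.I) * ((2 * π * Complex.I : ℂ)⁻¹ *
        ∫ θ in (0 : ℝ)..(2 * π), deriv (circleMap c R) θ •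
          ((circleMap c R θ - z₀)⁻¹ • (circleMap c R θ - (starRingEnd ℂ) (z : ℂ))⁻¹)) := by
    ring
  rw [hfin, hC]
  ring

include hN hU he hwt hmv hR hcl hz₀ in
theorem pair_DF_vF (z : ℍ) : T2.pair F (DF e c R z₀) (vF e z) = 0 := by
  have hz₀im : 0 < z₀.im := hcl (ball_subset_closedBall hz₀)
  have h1 : DF e c R z₀ = fun g => vF e (ofComplex z₀) g - AF e c R z₀ g := rfl
  rw [h1, pair_sub670 F (he.vF _) (he.AF hR hcl hz₀) (he.vF z),
    pair_vF hN hU F he hwt hmv, pair_AF_vF hN hU F he hwt hmv hR hcl hz₀,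
    ofComplex_apply_of_im_pos hz₀im]
  exact sub_self _

include hN hU he hwt hmv hR hcl hz₀ in
theorem pair_vF_DF (z : ℍ) : T2.pair F (vF e z) (DF e c R z₀) = 0 := by
  rw [pair_conj670, pair_DF_vF hN hU F he hwt hmv hR hcl hz₀, map_zero]

include hN hU he hwt hmv hR hcl hz₀ in
theorem pair_AF_DF : T2.pair F (AF e c R z₀) (DF e c R z₀) = 0 := by
  have hw := continuous_wtC hR hcl hz₀
  have hh : Continuous fun θ : ℝ => gzMat (zH c R θ) :=
    continuous_gzMat.comp (continuous_zH hR hcl)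
  have h1 : AF e c R z₀ = fun g => (2 * π * Complex.I : ℂ)⁻¹ *
      ∫ θ in (0 : ℝ)..(2 * π), wtC c R z₀ θ * e (g * locInf (gzMat (zH c R θ))) := rfl
  rw [h1, pair_const_mul670, pair_integral670 F he (he.DF hR hcl hz₀) hw hh 0 (2 * π)]
  have hθ : ∀ θ : ℝ, wtC c R z₀ θ *
      T2.pair F (fun g => e (g * locInf (gzMat (zH c R θ)))) (DF e c R z₀) = 0 := by
    intro θ
    have h3 := pair_vF_DF hN hU F he hwt hmv hR hcl hz₀ (zH c R θ)
    have h4 : vF e (zH c R θ) = fun g => (((Real.sqrt (zH c R θ).im : ℝ) : ℂ))⁻¹ *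
        e (g * locInf (gzMat (zH c R θ))) := rfl
    rw [h4, pair_const_mul670] at h3
    rcases mul_eq_zero.1 h3 with h6 | h6
    · exact absurd h6 (inv_ne_zero (sqrt_im_ne_zero _))
    · rw [h6, mul_zero]
  simp_rw [hθ]
  simp

include hN hU F he hwt hmv hR hcl hz₀ in
/-- **The defect of Cauchy's formula vanishes identically.** -/
theorem DF_eq_zero (g : A0.G ℚ) : DF e c R z₀ g = 0 := by
  refine definite670 hN F (he.DF hR hcl hz₀) ?_ g
  have h1 := pair_sub670 F (he.vF (ofComplex z₀)) (he.AF hR hcl hz₀) (he.DF hR hcl hz₀)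
  have h2 : T2.pair F (DF e c R z₀) (DF e c R z₀)
      = T2.pair F (fun g => vF e (ofComplex z₀) g - AF e c R z₀ g) (DF e c R z₀) := rfl
  rw [h2, h1, pair_vF_DF hN hU F he hwt hmv hR hcl hz₀,
    pair_AF_DF hN hU F he hwt hmv hR hcl hz₀, sub_zero]

include hN hU F he hwt hmv hR hcl hz₀ in
/-- **Cauchy's integral formula** for `z ↦ y^{-1/2} e(g g_z)`. -/
theorem cauchy_vF (g : A0.G ℚ) :
    ((2 * π * Complex.I : ℂ)⁻¹ • ∮ z in C(c, R), (z - z₀)⁻¹ • vF e (ofComplex z) g)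
      = vF e (ofComplex z₀) g := by
  rw [circleIntegral_eq_AF]
  have := DF_eq_zero hN hU F he hwt hmv hR hcl hz₀ g
  unfold DF at this
  exact (sub_eq_zero.1 this).symm

end Cauchy

section Final

variable (hN : T1.AdNormC ℚ) (hU : T1.UnimodC ℚ) (F : T2.Frame ℚ) {e : A0.G ℚ → ℂ}
  (he : IsAut670 e)
  (hwt : ∀ (θ : ℝ) (g : A0.G ℚ),
    e (g * locInf (kTheta θ)) = Complex.exp (Complex.I * ((θ : ℝ) : ℂ)) * e g)
  (hmv : ∀ t : ℝ, 0 < t → ∀ g : A0.G ℚ,
    (∫ θ in (0 : ℝ)..(2 * π),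
      Complex.exp (-(Complex.I * ((θ : ℝ) : ℂ))) * e (g * locInf (kTheta θ * aT t)))
      = ((2 * π / Real.cosh (t / 2) : ℝ) : ℂ) * e g)

include hN hU F he hwt hmv in
/-- **D3, concrete form**: `z ↦ y^{-1/2} e(g g_z)` is holomorphic on `ℍ`, for every `g`. -/
theorem mdifferentiable_vF (g : A0.G ℚ) :
    MDifferentiable 𝓘(ℂ) 𝓘(ℂ) (fun z : ℍ => vF e z g) := by
  rw [UpperHalfPlane.mdifferentiable_iff]
  refine differentiableOn_of_cauchy isOpen_upperHalfPlaneSet ?_ ?_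
  · intro z hz
    have h1 : ContinuousAt ofComplex z := (contMDiffAt_ofComplex (n := 0) hz).continuousAt
    exact (ContinuousAt.comp (f := ofComplex) (g := fun z : ℍ => vF e z g)
      (continuous_vF he.cont g).continuousAt h1).continuousWithinAt
  · intro c R hR hcl w hw
    exact cauchy_vF hN hU F he hwt hmv hR hcl hw g

end Final

end Fermat.Agent.LT.H670.D3

end
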