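import Fermat.Agent.LT.H670.D3.Main

/-!
# Row LT, T6inf.08 = D3 (helper670, SZEGO-KERNEL route): THE STATEMENT

OFF-MAIN.  `wtOneHol_of_t1 : T1.T1Out ℚ → WtOneHolC670`, where `WtOneHolC670` is the body of
`Fermat.Agent.LT.T6.Inf.WtOneHolC` (helper19, `LT/T6/Inf/Spec.lean` v2, sha256 3d46cdcb2296)
VERBATIM, with `MeanValueWtOne670` = body of `T6.Inf.MeanValueWtOne` VERBATIM.
(`D3/Closed.lean` states it against the Spec itself.)

A continuous bounded function on `GL₂(𝔸_ℚ)`, left invariant under `GL₂(ℚ)`, right invariant under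
the positive real scalars, of weight one under `SO(2)`, whose weight-one circle means have the
eigenvalue function `2π / cosh (t/2)`, is holomorphic: `z ↦ y^{-1/2} e(g_z g)` is holomorphic on
`ℍ`.  The level hypothesis is not used.  Global input: `T1.T1Out ℚ` (frame, unimodularity).
-/

set_option autoImplicit false

open IsDedekindDomain NumberField MeasureTheory
open UpperHalfPlane
open scoped MatrixGroups Real Manifold

noncomputable section

namespace Fermat.Agent.LT.H670.D3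

open Fermat.Agent.LT.H556 Fermat.Agent.LT.H670 Fermat.Agent.LT.H670.QOut Fermat.Agent.LT

/-- body of `T6.Inf.MeanValueWtOne` (helper19), verbatim -/
def MeanValueWtOne670 (e : A0.G ℚ → ℂ) : Prop :=
  ∀ (w : InfinitePlace ℚ) (t : ℝ), 0 < t → ∀ Y : ℝ → A0.G ℚ,
    (∀ θ : ℝ, A0.IsLocalAtInf w (Y θ) ∧ A0.infComp w (Y θ) = QOut.rotC θ * A0.torus t) →
    ∀ g : A0.G ℚ,
      (∫ θ in (0 : ℝ)..(2 * Real.pi),
          Complex.exp (-(Complex.I * ((θ : ℝ) : ℂ))) * e (g * Y θ))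
        = ((2 * Real.pi / Real.cosh (t / 2) : ℝ) : ℂ) * e g

/-- body of `T6.Inf.WtOneHolC` (helper19), verbatim -/
def WtOneHolC670 : Prop :=
  ∀ (𝔫 : Ideal (𝓞 ℚ)), 𝔫 ≠ ⊥ → ∀ e : A0.G ℚ → ℂ,
    Continuous e → (∃ C : ℝ, ∀ g : A0.G ℚ, ‖e g‖ ≤ C) →
    (∀ (γ : GL (Fin 2) ℚ) (g : A0.G ℚ),
      e (Matrix.GeneralLinearGroup.map (algebraMap ℚ (A0.Adl ℚ)) γ * g) = e g) →
    (∀ u : A0.G ℚ, A0.InLevelGroup 𝔫 u → ∀ g : A0.G ℚ, e (g * u) = e g) →
    (∀ (w : InfinitePlace ℚ) (z : A0.G ℚ), A0.IsArchPosScalar w z →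
      ∀ g : A0.G ℚ, e (g * z) = e g) →
    (∀ (w : InfinitePlace ℚ) (θ : ℝ) (k : A0.G ℚ), A0.IsLocalAtInf w k →
      A0.infComp w k = QOut.rotC θ →
      ∀ g : A0.G ℚ, e (g * k) = Complex.exp (Complex.I * ((θ : ℝ) : ℂ)) * e g) →
    MeanValueWtOne670 e →
    ∀ (w : InfinitePlace ℚ) (Y : ℍ → A0.G ℚ),
      (∀ z : ℍ, A0.IsLocalAtInf w (Y z) ∧ A0.infComp w (Y z) = QOut.gzC z) →
      ∀ g : A0.G ℚ, (∀ w' : InfinitePlace ℚ, A0.TrivAtInf w' g) →
        MDifferentiable 𝓘(ℂ) 𝓘(ℂ)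
          (fun z : ℍ => (((Real.sqrt z.im : ℝ) : ℂ))⁻¹ * e (Y z * g))

/-- **T6inf.08 = D3 from the output of tower T1.** -/
theorem wtOneHol_of_t1 (hT1 : T1.T1Out ℚ) : WtOneHolC670 := by
  intro 𝔫 _ e hcont hbdd hleft _ hscal hweight hmean w Y hY g hg
  obtain ⟨F⟩ := T2.H245.frameExists245 hT1
  have he : IsAut670 e := ⟨hcont, hbdd, hleft, hscal⟩
  have hwt : ∀ (θ : ℝ) (g : A0.G ℚ),
      e (g * locInf (kTheta θ)) = Complex.exp (Complex.I * ((θ : ℝ) : ℂ)) * e g :=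
    fun θ g => hweight w θ _ (isLocalAtInf_locInf w _) (infComp_kTheta w θ) g
  have hmv : ∀ t : ℝ, 0 < t → ∀ g : A0.G ℚ,
      (∫ θ in (0 : ℝ)..(2 * π),
        Complex.exp (-(Complex.I * ((θ : ℝ) : ℂ))) * e (g * locInf (kTheta θ * aT t)))
        = ((2 * π / Real.cosh (t / 2) : ℝ) : ℂ) * e g :=
    fun t ht g => hmean w t ht (fun θ => locInf (kTheta θ * aT t))
      (fun θ => ⟨isLocalAtInf_locInf w _, infComp_kTheta_aT w θ t⟩) g
  have key := mdifferentiable_vF hT1.adNorm hT1.unimod F he hwt hmv g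
  have hfun : (fun z : ℍ => (((Real.sqrt z.im : ℝ) : ℂ))⁻¹ * e (Y z * g))
      = fun z : ℍ => vF e z g := by
    funext z
    have hYz : Y z = locInf (gzMat z) := by
      refine eq_locInf w _ (hY z).1 ?_
      rw [(hY z).2, ← infComp_gzMat w z, infComp_locInf]
    show _ = (((Real.sqrt z.im : ℝ) : ℂ))⁻¹ * e (g * locInf (gzMat z))
    rw [hYz, locInf_comm _ hg]
  rw [hfun]
  exact key

end Fermat.Agent.LT.H670.D3

end
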